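import Fermat.Agent.S27.AR.Main

/-!
# S27 : small consequences of the value lemmas of `AR/Main.lean` (sorry-free given those)
`reg_algebraMap`, `Reg.add/sub/mul/neg/pow`, `val_neg`, `val_sub`, `val_pow`, `val_ne_zero_of_ord`.
-/

set_option autoImplicit false
set_option linter.unusedSectionVars false

noncomputable section

namespace Fermat.Agent.S27

open AlgebraicCurve Fermat.Agent.S37 Topology

section G
variable {K F : Type*} [Field K] [Field F] [Algebra K F] [IsAlgClosed K] [CharZero K]

theorem reg_algebraMap (P : Place K F) (c : K) : Reg P (algebraMap K F c) := P.algebraMap_mem' c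

theorem Reg.add {P : Place K F} {y z : F} (hy : Reg P y) (hz : Reg P z) : Reg P (y + z) :=
  add_mem hy hz

theorem Reg.sub {P : Place K F} {y z : F} (hy : Reg P y) (hz : Reg P z) : Reg P (y - z) :=
  sub_mem hy hz

theorem Reg.mul {P : Place K F} {y z : F} (hy : Reg P y) (hz : Reg P z) : Reg P (y * z) :=
  mul_mem hy hz

theorem Reg.neg {P : Place K F} {y : F} (hy : Reg P y) : Reg P (-y) :=
  neg_mem hy

theorem Reg.pow {P : Place K F} {y : F} (hy : Reg P y) (n : ℕ) : Reg P (y ^ n) :=
  pow_mem hy n

theorem val_neg (h : IsFF K F) {P : Place K F} {y : F} (hy : Reg P y) :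
    val P (-y) = - val P y := by
  have h1 := val_add h hy hy.neg
  rw [add_neg_cancel] at h1
  have h2 : val P (0 : F) = 0 := by simpa using val_algebraMap h P (0 : K)
  rw [h2] at h1
  exact (neg_eq_of_add_eq_zero_right h1.symm).symm

theorem val_sub (h : IsFF K F) {P : Place K F} {y z : F} (hy : Reg P y) (hz : Reg P z) :
    val P (y - z) = val P y - val P z := by
  rw [sub_eq_add_neg, val_add h hy hz.neg, val_neg h hz, sub_eq_add_neg]

theorem val_pow (h : IsFF K F) {P : Place K F} {y : F} (hy : Reg P y) (n : ℕ) :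
    val P (y ^ n) = val P y ^ n := by
  induction n with
  | zero => simpa using val_algebraMap h P (1 : K)
  | succ n ih => rw [pow_succ, val_mul h (hy.pow n) hy, ih, pow_succ]

theorem val_ne_zero_of_ord (h : IsFF K F) {P : Place K F} {y : F} (hy : P.ord y = 0) (hy0 : y ≠ 0) :
    val P y ≠ 0 := by
  intro h0
  rcases (val_eq_zero_iff h (reg_iff.2 hy.ge)).1 h0 with h1 | h1
  · exact hy0 h1
  · omega

end G

end Fermat.Agent.S27
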