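import Mathlib
import Fermat.Prelude.Def_AlgebraicCurve_DivisorClassGroup
import Fermat.Prelude.Def_AlgebraicCurve_IsCurveOver
import Fermat.Prelude.Def_AlgebraicCurve_Repartitions
import Fermat.Agent.S37.Riemann

/-!
# S27 : common definitions   (blueprint: `select body from briefing where title like 'S27-BLUEPRINT%'`)

`K` algebraically closed of characteristic `0`, `F/K` a function field in one variable (`S37.IsFF K F`).

* `Reg P y` : `y` is regular at the place `P`;  `Van P y` : `y` vanishes at `P`;  `val P y : K` the value (junk `0` at a pole).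
* `sgl P y` : the repartition with `y` at `P` and `0` elsewhere.
* `WD D = Module.Dual K (H1 D)` : the WEIL DIFFERENTIALS killing `𝔸(D) + F`;  `WD 0` has dimension `genusFF K F` BY DEFINITION.
* `loc ω P y = ω [sgl P y]` : the local component ("`Res_P (y ω)`").  The residue theorem `∑_P loc ω P y = 0` (`y ∈ F`) is built in.
* `Chart F` (`K = ℂ`) : a holomorphic parametrisation `σ ↦ pl σ` of places by a disc, with coordinate function `t` (`t (pl σ) = σ`, unramified).
-/

set_option autoImplicit false

noncomputable section

namespace Fermat.Agent.S27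

open AlgebraicCurve Fermat.Agent.S37 Topology

section General

variable {K F : Type*} [Field K] [Field F] [Algebra K F]

/-- `y` is regular at `P` -/
def Reg (P : Place K F) (y : F) : Prop := y ∈ P.toValuationSubring

/-- `y` vanishes at `P` -/
def Van (P : Place K F) (y : F) : Prop := y = 0 ∨ 0 < P.ord y

open Classical in
/-- the value of `y` at `P` (junk `0` if `y` has a pole at `P`) -/
def val (P : Place K F) (y : F) : K :=
  if h : ∃ c : K, Van P (y - algebraMap K F c) then h.choose else 0

open Classical in
/-- the repartition with `y` at `P` and `0` elsewhere -/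
def sgl (P : Place K F) (y : F) : ↥(repartitions K F) :=
  ⟨fun v => if v = P then y else 0,
    mem_repartitions_of_finite_ord ((Set.finite_singleton P).subset (by
      intro v hv
      by_contra hne
      have hne' : ¬ v = P := hne
      simp only [Set.mem_ofPred_eq, if_neg hne', Place.ord_zero, lt_self_iff_false] at hv))⟩

/-- Weil differentials killing `𝔸(D) + F` -/
abbrev WD (D : Divisor K F) : Type _ := Module.Dual K (H1 D)

/-- the local component of a Weil differential -/
def loc {D : Divisor K F} (ω : WD D) (P : Place K F) (y : F) : K :=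
  ω (Submodule.Quotient.mk (sgl P y))

/-- the divisor `∑ i, P i` -/
def sumPl {n : ℕ} (P : Fin n → Place K F) : Divisor K F := ∑ i, Finsupp.single (P i) 1

/-- the class of a divisor of degree `0` (junk `0` otherwise) -/
def cls (D : Divisor K F) : Pic0 K F := by
  classical
  exact if h : D ∈ Divisor.degZero (K := K) (F := F) then Pic0.mk ⟨D, h⟩ else 0

end General

/-- A holomorphic chart on the "Riemann surface" `Place ℂ F`. The centre is `pl 0`. -/
structure Chart (F : Type*) [Field F] [Algebra ℂ F] where
  /-- the coordinate function -/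
  t : F
  /-- the radius -/
  r : ℝ
  /-- the parametrisation (only the values on `ball 0 r` matter) -/
  pl : ℂ → Place ℂ F
  /-- exceptional parameters for `dens` -/
  exc : Set ℂ
  r_pos : 0 < r
  exc_fin : exc.Finite
  ord_t : ∀ σ ∈ Metric.ball (0 : ℂ) r, (pl σ).ord (t - algebraMap ℂ F σ) = 1
  reg : ∀ σ₀ ∈ Metric.ball (0 : ℂ) r, ∀ y : F, Reg (pl σ₀) y →
    (∀ᶠ σ in 𝓝 σ₀, Reg (pl σ) y) ∧ AnalyticAt ℂ (fun σ => val (pl σ) y) σ₀
  dens : ∀ ω : WD (0 : Divisor ℂ F), ∃ η : F, (∀ σ ∈ Metric.ball (0 : ℂ) r, Reg (pl σ) η) ∧
    ∀ σ ∈ Metric.ball (0 : ℂ) r, σ ∉ exc →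
      loc ω (pl σ) (t - algebraMap ℂ F σ)⁻¹ = val (pl σ) η

end Fermat.Agent.S27
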